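/-
Project BAD, layer L-MOD, block NC (sub-architect helper71).  SKELETON of the ABSTRACT part: exact
statements of all nodes; WIP, never import from landed files.  Every node goes to the file named in
its header.  Only Mathlib + S18/Defs + S36/BP/* + BAD/Model/* are needed.
-/
import Mathlib
import Fermat.Agent.S18.Defs
import Fermat.Agent.S36.BP.Defs
import Fermat.Agent.S36.BP.Rad
import Fermat.Agent.S36.BP.Build.LocalCrit
import Fermat.Agent.S36.BP.Build.ThroughAway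
import Fermat.Agent.S36.BP.Build.Level0
import Fermat.Agent.BAD.Model.Defs
import Fermat.Agent.BAD.Model.Cusp.Through
import Fermat.Agent.BAD.Model.NC.Defs

set_option autoImplicit false

noncomputable section

namespace Fermat.Agent.BAD.Model.NC

open Fermat.Agent.S18 Fermat.Agent.S36.BP Fermat.Agent.S36.BP.Build

variable {K₀ F : Type*} [Field K₀] [Field F] [Algebra K₀ F]
variable {A₀ : ValuationSubring K₀} {q : ℕ} {V : Fin 3 → ValuationSubring F} {ϖm : F}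
variable {R : Subring F} {X1 X2 z g g' : F}

/-! ## Block L : the local analysis at a non-cuspidal point `R` -/

/-! ### NC-L1 `BAD/Model/NC/Basic.lean` -/

theorem through_or_away (hR : PtBase A₀ q V R) (hT : ∀ i, LeLoc R (V i) → Through R (V i))
    (c : Fin 3) : Through R (V c) ∨ Away R (V c) := by
  sorry

theorem locQep (hR : PtBase A₀ q V R) (hT : ∀ i, LeLoc R (V i) → Through R (V i)) :
    LocQep q V R := by
  sorry

theorem exists_through' (hR : PtBase A₀ q V R) (hT : ∀ i, LeLoc R (V i) → Through R (V i)) :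
    ∃ c, Through R (V c) := by
  sorry

/-! ### NC-L2 `BAD/Model/NC/Incidence.lean` -/

/-- one component or all three. -/
theorem Inc.cross (hq : 2 ≤ q) (hq0 : (q : F) ≠ 0) (hR : PtBase A₀ q V R)
    (hT : ∀ i, LeLoc R (V i) → Through R (V i))
    (hlt : ∀ c, (V c).valuation (q : F) < 1)
    (I : Inc q V X1 X2) (h1 : X1 ∈ R) (h2 : X2 ∈ R) (h1' : (q : F) ^ 2 / X1 ∈ R)
    (h2' : (q : F) ^ 2 / X2 ∈ R) :
    (∃ c, ∀ c', c' ≠ c → Away R (V c')) ∨ (∀ c, Through R (V c)) := by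
  sorry

/-- `X1 = α κ` is a unit at the points off the component `V 2`. -/
theorem Inc.rUnit_X1 (hq0 : (q : F) ≠ 0) (hR : PtBase A₀ q V R)
    (hT : ∀ i, LeLoc R (V i) → Through R (V i)) (I : Inc q V X1 X2) (h1 : X1 ∈ R)
    (h1' : (q : F) ^ 2 / X1 ∈ R) (hA : Away R (V 2)) : RUnit R X1 := by
  sorry

/-- `q²/X2` lies in the maximal ideal of the points of the component `V 0`. -/
theorem Inc.mem_rad (hq0 : (q : F) ≠ 0) (hlt : (V 0).valuation (q : F) < 1) (I : Inc q V X1 X2)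
    (h2' : (q : F) ^ 2 / X2 ∈ R) (hT : Through R (V 0)) : (q : F) ^ 2 / X2 ∈ rad R := by
  sorry

/-! ### NC-L3 `BAD/Model/NC/Mid.lean` -/

/-- general principle: `z^(q-1) = q * unit` and only the middle component passes through `R`. -/
theorem princ_of_pow_eq (hq : 2 ≤ q) (hU1 : IsUnif (V 1) ϖm)
    (hram : (V 1).valuation ϖm ^ (q - 1) = (V 1).valuation (q : F))
    (hR : PtBase A₀ q V R) (hA : ∀ i, i ≠ (1 : Fin 3) → Away R (V i)) (hz : z ∈ R)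
    (hu : RUnit R (z ^ (q - 1) / (q : F))) : Princ R (V 1) := by
  sorry

/-- at a non-cuspidal point of the middle component only, `P₁₁ = (T₂ - T₀)`. -/
theorem princ_mid (hq : 2 ≤ q) (hq0 : (q : F) ≠ 0) (hU1 : IsUnif (V 1) ϖm)
    (hram : (V 1).valuation ϖm ^ (q - 1) = (V 1).valuation (q : F))
    (hR : PtBase A₀ q V R) (hT : ∀ i, LeLoc R (V i) → Through R (V i))
    (hA : ∀ i, i ≠ (1 : Fin 3) → Away R (V i)) (I : Inc q V X1 X2) (h1 : X1 ∈ R)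
    (h1' : (q : F) ^ 2 / X1 ∈ R) (hz : z ∈ R)
    (hzc : (V 1).valuation (z ^ (q - 1) * X1 / (q : F) + 1) < 1) : Princ R (V 1) := by
  sorry

/-! ### NC-L4 `BAD/Model/NC/Cross.lean` -/

/-- at a crossing point of thickness one, `P₂₀ = (T₂ - T₁^q)`. -/
theorem princ_cross (hq0 : (q : F) ≠ 0) (hU0 : IsUnif (V 0) (q : F)) (hR : PtBase A₀ q V R)
    (hT : ∀ i, LeLoc R (V i) → Through R (V i)) (hall : ∀ c, Through R (V c))
    (hg : g ∈ R) (hg' : g' ∈ R) (h0 : (V 0).valuation g' = 1) (h1 : (V 1).valuation g = 1)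
    (h2 : (V 2).valuation g = 1) (hu : RUnit R (g * g' / (q : F))) : Princ R (V 0) := by
  sorry

/-! ### NC-L5 `BAD/Model/NC/Local.lean` (helper71) -/

/-- **The local theorem at a non-cuspidal point.** -/
theorem ptHyp_local (hb : BaseHyp A₀ q) (hU0 : IsUnif (V 0) (q : F)) (hU1 : IsUnif (V 1) ϖm)
    (hU2 : IsUnif (V 2) (q : F))
    (hram : (V 1).valuation ϖm ^ (q - 1) = (V 1).valuation (q : F))
    (hR : PtBase A₀ q V R) (hT : ∀ i, LeLoc R (V i) → Through R (V i))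
    (E : Elts q V X1 X2 z g g') (M : MemR R q X1 X2 z g g')
    (Eα Eβ : Subfield F) (Nα Nβ : F →* F)
    (hthick : (∀ c, Through R (V c)) → RUnit R (g * g' / (q : F)))
    (hα : (∀ c, Through R (V c)) → HalfPt Eα Nα (V 0) (V 1) R)
    (hβ : (∀ c, Through R (V c)) → HalfPt Eβ Nβ (V 2) (V 1) R) :
    PtHyp V Eα Eβ Nα Nβ R := by
  have hq2 : 2 ≤ q := hb.prime.two_le
  have hq0 : (q : F) ≠ 0 := hU0.ne_zero
  have hlt0 : (V 0).valuation (q : F) < 1 := Level0.val_unif_lt_one hU0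
  have hlt2 : (V 2).valuation (q : F) < 1 := Level0.val_unif_lt_one hU2
  have hlt1 : (V 1).valuation (q : F) < 1 := by
    rw [← hram]
    exact pow_lt_one₀ zero_le (Level0.val_unif_lt_one hU1) (by omega)
  have hlt : ∀ c, (V c).valuation (q : F) < 1 := by
    intro c
    fin_cases c
    · exact hlt0
    · exact hlt1
    · exact hlt2
  have hta := through_or_away hR hT
  rcases E.inc.cross hq2 hq0 hR hT hlt M.hX1 M.hX2 M.hX1' M.hX2' with ⟨c, hA⟩ | hall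
  · have hTc : Through R (V c) := by
      rcases hta c with h | h
      · exact h
      · exfalso
        apply hR.not_all_away
        intro c'
        by_cases hc : c' = c
        · exact hc ▸ h
        · exact hA c' hc
    refine ⟨hta, ⟨c, hTc, ?_⟩, Or.inl ⟨c, hA⟩⟩
    fin_cases c
    · exact princ_of_unram hR 0 hU0 hA
    · exact princ_mid hq2 hq0 hU1 hram hR hT hA E.inc M.hX1 M.hX1' M.hz E.z_cong
    · exact princ_of_unram hR 2 hU2 hA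
  · exact ⟨hta, ⟨0, hall 0, princ_cross hq0 hU0 hR hT hall M.hg M.hg' E.g'_v0 E.g_v1 E.g_v2
      (hthick hall)⟩, Or.inr ⟨hall, hα hall, hβ hall⟩⟩

/-! ## Block T : thickness one at the crossing points -/

section Thick

variable {F₀ : Type*} [Field F₀] [Algebra K₀ F₀] {W₀ : ValuationSubring F₀} {R₀ : Subring F₀}

/-! ### NC-T1 `BAD/Model/NC/Thick0.lean`  (Mathlib + S18/Defs + S36/BP/{Defs,Rad}) -/

/-- **Igusa's theorem in disguise.**  `R₀` a local ring of the good model of level `N₀`, `D = d/dT`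
preserves `R₀` and `W₀`; `ψ = red((T(t^q) - T^q)/q)`, `k₀ = red κ`, `D ψ = 1/k₀ - T^(q-1)`.
If `k₀` vanishes at the point then `(T - T^(q²)) ψ` does not. -/
theorem thick0 (hq : q.Prime) (hU : IsUnif W₀ (q : F₀)) (hle : ∀ r ∈ R₀, r ∈ W₀)
    (hadd : ∀ a ∈ rad R₀, ∀ b ∈ rad R₀, a + b ∈ rad R₀)
    (hqep : ∀ y ∈ R₀, W₀.valuation y < 1 → y / (q : F₀) ∈ R₀)
    (hreg : ∃ t ∈ rad R₀, ∀ y ∈ rad R₀, ∃ r ∈ R₀, W₀.valuation (y - r * t) < 1)
    (D : Derivation K₀ F₀ F₀) (hDR : ∀ r ∈ R₀, D r ∈ R₀) (hDW : ∀ y ∈ W₀, D y ∈ W₀)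
    {T : F₀} (hT : T ∈ R₀) (hDT : D T = 1) {a : K₀} (ha : algebraMap K₀ F₀ a ∈ R₀)
    (hTa : T - algebraMap K₀ F₀ a ∈ rad R₀)
    (haq : W₀.valuation (algebraMap K₀ F₀ (a ^ (q ^ 2) - a)) < 1)
    {ψ k₀ e₀ : F₀} (hψ : ψ ∈ W₀) (hk₀ : k₀ ∈ rad R₀) (he₀ : e₀ ∈ rad R₀)
    (he : W₀.valuation (e₀ - (T - T ^ (q ^ 2)) * ψ) < 1)
    (hk : W₀.valuation (k₀ * (D ψ + T ^ (q - 1)) - 1) < 1) : False := by
  sorry

/-! ### NC-T2 `BAD/Model/NC/Good0.lean` -/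

theorem Good0.mem_rad_iff {ι : F₀ →+* F} (G : Good0 ι W₀ q R R₀) {r : F₀} (hr : r ∈ R₀) :
    r ∈ rad R₀ ↔ ι r ∈ rad R := by
  sorry

theorem Good0.add_rad {ι : F₀ →+* F} (G : Good0 ι W₀ q R R₀)
    (hadd : ∀ a ∈ rad R, ∀ b ∈ rad R, a + b ∈ rad R) :
    ∀ a ∈ rad R₀, ∀ b ∈ rad R₀, a + b ∈ rad R₀ := by
  sorry

/-- `R₀ → R / (R ∩ 𝔪_W)` is onto if `f(W / W₀) = 1`. -/
theorem Good0.dense {ι : F₀ →+* F} (G : Good0 ι W₀ q R R₀) {W : ValuationSubring F}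
    (hW : W.comap ι = W₀) (hle : ∀ r ∈ R, r ∈ W)
    (hadd : ∀ a ∈ rad R, ∀ b ∈ rad R, a + b ∈ rad R)
    (hd : ∀ y ∈ W, ∃ y₀ : F₀, W.valuation (ι y₀ - y) < 1) :
    ∀ r ∈ R, ∃ r₀ ∈ R₀, W.valuation (ι r₀ - r) < 1 := by
  sorry

theorem Good0.through {ι : F₀ →+* F} (G : Good0 ι W₀ q R R₀) {W : ValuationSubring F}
    (hW : W.comap ι = W₀) (hL : LeLoc R W)
    (hadd : ∀ a ∈ rad R, ∀ b ∈ rad R, a + b ∈ rad R)
    (hd : ∀ y ∈ W, ∃ y₀ : F₀, W.valuation (ι y₀ - y) < 1) : Through R W := by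
  sorry

theorem Good0.halfPt {ι : F₀ →+* F} (G : Good0 ι W₀ q R R₀) {Va Vm : ValuationSubring F}
    (hWa : Va.comap ι = W₀) (hWm : Vm.comap ι = W₀) (hlea : ∀ r ∈ R, r ∈ Va)
    (hlem : ∀ r ∈ R, r ∈ Vm) (hadd : ∀ a ∈ rad R, ∀ b ∈ rad R, a + b ∈ rad R)
    (hda : ∀ y ∈ Va, ∃ y₀ : F₀, Va.valuation (ι y₀ - y) < 1)
    (hdm : ∀ y ∈ Vm, ∃ y₀ : F₀, Vm.valuation (ι y₀ - y) < 1)
    {E : Subfield F} (hE : ∀ y, ι y ∈ E) {N : F →* F} (hN : ∀ ε : F, RUnit R ε → RUnit R (N ε)) :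
    HalfPt E N Va Vm R := by
  sorry

/-! ### NC-T3 `BAD/Model/NC/Good0OfChart.lean` -/

/-- `Good0` from a good chart (KL-A: `S18.IsChart`) of level `N₀`: `R₀ = (B₀)_𝔪`,
`𝔪 = {b | ι b ∈ rad R}`. -/
theorem exists_good0_of_isChart (ι : F₀ →ₐ[K₀] F) (hU : IsUnif W₀ (q : F₀)) {B₀ : Subring F₀}
    (hB : IsChart W₀ (q : F₀) B₀) (hconst : ∀ a ∈ A₀, algebraMap K₀ F₀ a ∈ B₀)
    {W : ValuationSubring F} (hW : W.comap (ι : F₀ →+* F) = W₀) (hR : IsPt A₀ R)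
    (hle : ∀ r ∈ R, r ∈ W) (hBR : ∀ b ∈ B₀, ι b ∈ R) :
    ∃ R₀ : Subring F₀, Good0 (ι : F₀ →+* F) W₀ q R R₀ ∧ (∀ b ∈ B₀, b ∈ R₀) ∧
      ∀ r ∈ R₀, ∃ a ∈ B₀, ∃ s ∈ B₀, RUnit R (ι s) ∧ r * s = a := by
  sorry

/-- the quotient rule. -/
theorem deriv_mem_of_frac (D : Derivation K₀ F₀ F₀) {B : Subring F₀} (hDB : ∀ b ∈ B, D b ∈ R₀)
    (hBR : ∀ b ∈ B, b ∈ R₀)
    (hfrac : ∀ r ∈ R₀, ∃ a ∈ B, ∃ s ∈ B, s ≠ 0 ∧ s⁻¹ ∈ R₀ ∧ r * s = a) :
    ∀ r ∈ R₀, D r ∈ R₀ := by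
  sorry

/-! ### NC-T4 `BAD/Model/NC/Thick.lean` -/

/-- **Thickness one**: transfer of `thick0` to the point `R` of the upper level, along an embedding
`ι` with `f(W / W₀) = 1`.  In the application `ι = β ∘ β`, `W = V₀₂`, `g = T₂ - T₁^q`,
`g' = T₁ - T₂^q`, `k = q² / β κ`. -/
theorem thick_of_good0 (hq : q.Prime) (ι : F₀ →ₐ[K₀] F) (hU : IsUnif W₀ (q : F₀))
    {W : ValuationSubring F} (hW : W.comap (ι : F₀ →+* F) = W₀) (hR : IsPt A₀ R)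
    (hle : ∀ r ∈ R, r ∈ W) (hd : ∀ y ∈ W, ∃ y₀ : F₀, W.valuation (ι y₀ - y) < 1)
    (G : Good0 (ι : F₀ →+* F) W₀ q R R₀)
    (hconst : ∀ a ∈ A₀, algebraMap K₀ F₀ a ∈ R₀)
    (hconstW : ∀ a : K₀, A₀.valuation a < 1 → W₀.valuation (algebraMap K₀ F₀ a) < 1)
    (D : Derivation K₀ F₀ F₀) (hDR : ∀ r ∈ R₀, D r ∈ R₀) (hDW : ∀ y ∈ W₀, D y ∈ W₀)
    {T : F₀} (hT : T ∈ R₀) (hDT : D T = 1)
    {k : F} (hg : g ∈ R) (hg' : g' ∈ R) (hk : k ∈ rad R) (he : g * g' / (q : F) ∈ R)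
    (hgW : W.valuation (g - (ι T - ι T ^ (q ^ 2))) < 1) (hg'W : g' / (q : F) ∈ W)
    (hTq : ι T ^ (q ^ 2) - ι T ∈ rad R)
    (hid : ∀ ψ k₀ : F₀, W.valuation (ι ψ - g' / (q : F)) < 1 → W.valuation (ι k₀ - k) < 1 →
      W₀.valuation (k₀ * (D ψ + T ^ (q - 1)) - 1) < 1) :
    RUnit R (g * g' / (q : F)) := by
  sorry

end Thick

end Fermat.Agent.BAD.Model.NC
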